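/-
Row 37 (S43), block C4 (= INJ), direct route (helper102).  SERIES LEVEL LEMMAS on `C1.RedS`.

* `IntR A f r`      : `f = P / Q` with `A`-integral `P`, `Q`, `red Q ≠ 0`, and reduction `r` (`r = 0` allowed): additive;
* `eq_C_of_pow_eq_C`: an `n`-th root of a constant in `k((t))` is a constant (`k` algebraically closed);
* `exists_redS`, `redS_of_qExpand`, `exists_redS_one_of_pow` : Gauss normalisation in `FB F₀`;
* bridges with `Triv.RedC`.
-/
import Fermat.Agent.S43.Triv.RedC
import Fermat.Agent.C1.Red.Basic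

set_option autoImplicit false

noncomputable section

namespace Fermat.Agent.S43.C4.Direct

open ModularCurve AlgebraicCurve Fermat.Agent.S24 Fermat.Agent.S24.B Fermat.Agent.S48.BB
  Fermat.Agent.S48.BB.M Fermat.Agent.S48.BB.E
open Fermat.Agent.GAL.E (GQ incl red)
open Fermat.Agent.C1 (RedS)

/-- the residue field of a valuation ring of an algebraically closed field is algebraically closed -/
theorem isAlgClosed_residueField {L : Type*} [Field L] [IsAlgClosed L]
    (V : ValuationSubring L) : IsAlgClosed (IsLocalRing.ResidueField V) := by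
  refine IsAlgClosed.of_exists_root _ fun p hp hirr => ?_
  have hl : p ∈ Polynomial.lifts (IsLocalRing.residue V) := by
    rw [Polynomial.mem_lifts]
    exact Polynomial.map_surjective _ IsLocalRing.residue_surjective p
  obtain ⟨P, hPmap, hPdeg, hPmonic⟩ := Polynomial.lifts_and_degree_eq_and_monic hl hp
  have hdeg : (P.map (algebraMap V L)).degree ≠ 0 := by
    rw [(hPmonic).degree_map, hPdeg]
    exact (Polynomial.degree_pos_of_irreducible hirr).ne'
  obtain ⟨z, hz⟩ := IsAlgClosed.exists_root (P.map (algebraMap V L)) hdeg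
  rw [Polynomial.IsRoot.def, Polynomial.eval_map] at hz
  have hzint : IsIntegral V z := ⟨P, hPmonic, hz⟩
  obtain ⟨y, hy⟩ := (IsIntegrallyClosed.isIntegral_iff (R := V) (K := L)).mp hzint
  refine ⟨IsLocalRing.residue V y, ?_⟩
  have h0 : P.eval y = 0 := by
    apply FaithfulSMul.algebraMap_injective V L
    rw [map_zero, ← Polynomial.eval₂_at_apply, hy]
    exact hz
  rw [← hPmap, Polynomial.eval_map, Polynomial.eval₂_at_apply, h0, map_zero]

/-- an `n`-th root of a constant is a constant -/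
theorem eq_C_of_pow_eq_C {k : Type*} [Field k] [IsAlgClosed k] (r : LaurentSeries k) {n : ℕ}
    (hn : n ≠ 0) (b : k) (h : r ^ n = HahnSeries.C b) : ∃ b' : k, r = HahnSeries.C b' := by
  have hC : ∀ c : k, algebraMap k (LaurentSeries k) c = HahnSeries.C c := by
    intro c
    have h1 : algebraMap k (PowerSeries k) c = PowerSeries.C c := by simp
    rw [HahnSeries.algebraMap_apply', h1, HahnSeries.ofPowerSeries_C]
  have hint : IsIntegral k r := by
    refine ⟨Polynomial.X ^ n - Polynomial.C b, Polynomial.monic_X_pow_sub_C b hn, ?_⟩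
    rw [Polynomial.eval₂_sub, Polynomial.eval₂_pow, Polynomial.eval₂_X, Polynomial.eval₂_C, h, hC,
      sub_self]
  have hdeg := IsAlgClosed.degree_eq_one_of_irreducible k (minpoly.irreducible hint)
  obtain ⟨b', hb'⟩ := minpoly.mem_range_of_degree_eq_one k r hdeg
  exact ⟨b', by rw [← hC, hb']⟩

variable {A : ValuationSubring Kbar}

/-- `f = P / Q` with `A`-integral series `P`, `Q`, `red Q ≠ 0`; `r = red P / red Q`. -/
def IntR (A : ValuationSubring Kbar) (f : LaurentSeries Kbar)
    (r : LaurentSeries (IsLocalRing.ResidueField A)) : Prop :=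
  ∃ P Q : LaurentSeries A, red A Q ≠ 0 ∧ f * incl A Q = incl A P ∧ r * red A Q = red A P

theorem IntR.zero : IntR A 0 0 :=
  ⟨0, 1, by rw [map_one]; exact one_ne_zero, by rw [zero_mul, map_zero], by rw [zero_mul, map_zero]⟩

theorem IntR.add {f g : LaurentSeries Kbar} {r s : LaurentSeries (IsLocalRing.ResidueField A)}
    (hf : IntR A f r) (hg : IntR A g s) : IntR A (f + g) (r + s) := by
  obtain ⟨P, Q, hQ, h1, h2⟩ := hf
  obtain ⟨P', Q', hQ', h1', h2'⟩ := hg
  refine ⟨P * Q' + P' * Q, Q * Q', ?_, ?_, ?_⟩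
  · rw [map_mul]; exact mul_ne_zero hQ hQ'
  · rw [map_mul, map_add, map_mul, map_mul, ← h1, ← h1']
    ring
  · rw [map_mul, map_add, map_mul, map_mul, ← h2, ← h2']
    ring

theorem IntR.sum {ι : Type*} (s : Finset ι) {F : ι → LaurentSeries Kbar}
    {R : ι → LaurentSeries (IsLocalRing.ResidueField A)} (h : ∀ i ∈ s, IntR A (F i) (R i)) :
    IntR A (∑ i ∈ s, F i) (∑ i ∈ s, R i) := by
  classical
  induction s using Finset.induction_on with
  | empty => simpa using IntR.zero
  | insert a s ha ih =>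
    rw [Finset.sum_insert ha, Finset.sum_insert ha]
    exact (h a (Finset.mem_insert_self a s)).add (ih fun i hi => h i (Finset.mem_insert_of_mem hi))

theorem IntR.of_redS {f : LaurentSeries Kbar} {r : LaurentSeries (IsLocalRing.ResidueField A)}
    (h : RedS A f 1 r) : IntR A f r := by
  obtain ⟨-, P, Q, -, hQ, h1, h2⟩ := h
  exact ⟨P, Q, hQ, by rw [h1, map_one, one_mul], h2⟩

theorem IntR.redS {f : LaurentSeries Kbar} {r : LaurentSeries (IsLocalRing.ResidueField A)}
    (h : IntR A f r) (hr : r ≠ 0) : RedS A f 1 r := by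
  obtain ⟨P, Q, hQ, h1, h2⟩ := h
  exact ⟨one_ne_zero, P, Q, by rw [← h2]; exact mul_ne_zero hr hQ, hQ,
    by rw [h1, map_one, one_mul], h2⟩

/-- normalising a constant reduction -/
theorem exists_redS_one_of_C {f : LaurentSeries Kbar} {c : Kbar}
    {a : IsLocalRing.ResidueField A} (h : RedS A f c (HahnSeries.C a)) :
    ∃ c' : Kbar, RedS A f c' 1 := by
  have ha : a ≠ 0 := by
    rintro rfl
    exact h.red_ne_zero (map_zero _)
  obtain ⟨b, rfl⟩ := IsLocalRing.residue_surjective a
  have hb : IsUnit b := by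
    by_contra hb
    exact ha ((IsLocalRing.residue_eq_zero_iff b).mpr ((IsLocalRing.mem_maximalIdeal b).mpr hb))
  obtain ⟨bu, rfl⟩ := hb
  have h1 := h.rescale bu
  have e1 : HahnSeries.C (IsLocalRing.residue A ((bu⁻¹ : Aˣ) : A)) *
      HahnSeries.C (IsLocalRing.residue A (bu : A)) =
      (1 : LaurentSeries (IsLocalRing.ResidueField A)) := by
    rw [← map_mul, ← map_mul, Units.inv_mul, map_one, map_one]
  rw [e1] at h1
  exact ⟨_, h1⟩

/-! ### bridges with `Triv.RedC` -/

theorem redC_of_redS {z : LaurentSeries Kbar} {c : Kbar} (h : RedS A z c 1) : Triv.RedC A z := by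
  obtain ⟨hc, P, Q, hP, hQ, h1, h2⟩ := h
  exact ⟨red A Q, hQ, hQ, c, P, Q, hc, by rw [← h2, one_mul], rfl, h1⟩

theorem exists_redS_of_redC {z : LaurentSeries Kbar} (h : Triv.RedC A z) :
    ∃ c : Kbar, RedS A z c 1 := by
  obtain ⟨α, hα, -, c, a, b, hc, ha, hb, e⟩ := h
  exact ⟨c, hc, a, b, by rw [ha]; exact hα, by rw [hb]; exact hα, e, by rw [one_mul, ha, hb]⟩

/-! ### Gauss normalisation in `FB F₀` -/

variable {F₀ : IntermediateField ℚ (LaurentSeries ℚ)} {q : ℕ}

theorem exists_redS (hG : IntGen F₀) (hq : q.Prime) (hA : A.LiesOverPrime q) (u : FB F₀)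
    (hu : u ≠ 0) :
    ∃ (c : Kbar) (r : LaurentSeries (IsLocalRing.ResidueField A)),
      RedS A (u : LaurentSeries Kbar) c r := by
  obtain ⟨c, x, y, hx, hy, hc, hrx, hry, hu'⟩ := exists_scaling hG A q hq hA u hu
  refine ⟨c, red A x / red A y, hc, x, y, hrx, hry, ?_, div_mul_cancel₀ _ hry⟩
  have hy0 : incl A y ≠ 0 := C1.incl_ne_zero_of_red_ne_zero hry
  have e : (u : LaurentSeries Kbar) = HahnSeries.C c * (incl A x / incl A y) := by
    rw [hu']
    show ((algebraMap Kbar (FB F₀) c : FB F₀) : LaurentSeries Kbar) * (incl A x / incl A y) = _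
    rw [show ((algebraMap Kbar (FB F₀) c : FB F₀) : LaurentSeries Kbar) = HahnSeries.C c from
      GAL.E.scaling_algebraMap c]
  rw [e, mul_assoc, div_mul_cancel₀ _ hy0]

/-- descent of the normalisation along `Q ↦ Q^m` -/
theorem redS_of_qExpand (hG : IntGen F₀) (hq : q.Prime) (hA : A.LiesOverPrime q) (u : FB F₀)
    (m : ℕ) [NeZero m] {c : Kbar} {r : LaurentSeries (IsLocalRing.ResidueField A)}
    (h : RedS A (qExpand Kbar m (u : LaurentSeries Kbar)) c
      (qExpand (IsLocalRing.ResidueField A) m r)) :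
    RedS A (u : LaurentSeries Kbar) c r := by
  have hu0 : u ≠ 0 := by
    rintro rfl
    apply h.ne_zero
    show qExpand Kbar m 0 = 0
    exact map_zero _
  obtain ⟨c', r', h'⟩ := exists_redS hG hq hA u hu0
  obtain ⟨a, ha1, ha2⟩ := h.unique (h'.map_qExpand m)
  have h3 := h'.rescale a
  rw [← ha1] at h3
  have h4 : HahnSeries.C (IsLocalRing.residue A ((a⁻¹ : Aˣ) : A)) * r' = r := by
    apply qExpand_injective (R := IsLocalRing.ResidueField A) m
    rw [map_mul, qExpand_C, ha2, ← mul_assoc, ← map_mul, ← map_mul, Units.inv_mul, map_one,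
      map_one, one_mul]
  rwa [h4] at h3

/-- **an `n`-th root (in `FB F₀`) of an element `≡ const` is `≡ const`** -/
theorem exists_redS_one_of_pow (hG : IntGen F₀) (hq : q.Prime) (hA : A.LiesOverPrime q)
    (z : FB F₀) {n : ℕ} (hn : n ≠ 0) {c : Kbar}
    (h : RedS A ((z : LaurentSeries Kbar) ^ n) c 1) : ∃ c' : Kbar, RedS A (z : LaurentSeries Kbar) c' 1 := by
  have := isAlgClosed_residueField A
  have hz0 : z ≠ 0 := by
    rintro rfl
    apply h.ne_zero
    show (0 : LaurentSeries Kbar) ^ n = 0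
    exact zero_pow hn
  obtain ⟨c', r, h'⟩ := exists_redS hG hq hA z hz0
  obtain ⟨a, -, ha2⟩ := h.unique (h'.pow n)
  rw [mul_one] at ha2
  obtain ⟨b', rfl⟩ := eq_C_of_pow_eq_C r hn _ ha2
  exact exists_redS_one_of_C h'

end Fermat.Agent.S43.C4.Direct

end
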