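/-
Row 37 (S43), block C4 (= INJ), direct route (helper102).

`F₀ ≤ F₁`, `G` a finite commutative group of diamond operators of `FB F₁` with fixed field `FB F₀`, `q ∤ |G|`,
`A ∣ q`.  If `π^* x` is trivial at all the diamond conjugates of the Gauss valuation (`Triv.IsKD`), then
`(T_ℓ - ℓ - 1) x` is trivial at the Gauss valuation of `FB F₀` (`Triv.IsKinf`).

Proof.  `α u = f h⁻ⁿ` with `⟨d⟩ f ≡ const` for all `d`.  `z_d := ⟨d⟩ h / h`: `(⟨e⟩ z_d)ⁿ = ⟨e d⟩ f / ⟨e⟩ f ≡ const`, so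
`⟨e⟩ z_d ≡ a_{d,e}` (constants).  `g := T h / (h^ℓ ⟨ℓ⟩ h)`: `⟨d⟩ g / g = T z_d / (z_d^ℓ ⟨ℓ⟩ z_d) ≡ 1` (the constants
cancel).  `g₀ := ∑_d ⟨d⟩ g = g |G| (1 + m)` is `G`-invariant, and `T(α u) / (α u)^(ℓ+1) = [T f / (f^ℓ ⟨ℓ⟩ f)] g⁻ⁿ`.
-/
import Fermat.Agent.S43.C4.Series
import Fermat.Agent.S43.Triv.Pi

set_option autoImplicit false

noncomputable section

namespace Fermat.Agent.S43.C4.Direct

open ModularCurve AlgebraicCurve Fermat.Agent.S24 Fermat.Agent.S24.B Fermat.Agent.S48.BB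
  Fermat.Agent.S48.BB.M Fermat.Agent.S48.BB.E Fermat.Agent.S48.BB.T Fermat.Agent.S43.Ops.Pi
  Fermat.Agent.S43.Triv
open Fermat.Agent.GAL.E (GQ incl red)
open Fermat.Agent.C1 (RedS)

variable {F₀ : IntermediateField ℚ (LaurentSeries ℚ)} {A : ValuationSubring Kbar} {q : ℕ}

/-- `y ≡ c` (a constant) for the Gauss valuation. -/
def R1 (A : ValuationSubring Kbar) (y : FB F₀) (c : Kbar) : Prop :=
  RedS A (y : LaurentSeries Kbar) c 1

namespace R1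

variable {y y' : FB F₀} {c c' : Kbar}

theorem const_ne_zero (h : R1 A y c) : c ≠ 0 := h.1

theorem mul (h : R1 A y c) (h' : R1 A y' c') : R1 A (y * y') (c * c') := by
  have := RedS.mul h h'
  rw [one_mul] at this
  exact this

theorem inv (h : R1 A y c) : R1 A y⁻¹ c⁻¹ := by
  have := RedS.inv h
  rw [inv_one] at this
  exact this

theorem div (h : R1 A y c) (h' : R1 A y' c') : R1 A (y / y') (c / c') := by
  rw [div_eq_mul_inv, div_eq_mul_inv]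
  exact h.mul h'.inv

theorem pow (h : R1 A y c) (m : ℕ) : R1 A (y ^ m) (c ^ m) := by
  have := RedS.pow h m
  rw [one_pow] at this
  exact this

/-- the Hecke operator -/
theorem hecke (hI : IntGen F₀) (hq : q.Prime) (hA : A.LiesOverPrime q) {ℓ : ℕ} [NeZero ℓ]
    (H : HeckeOp1 F₀ ℓ) (h : R1 A y c) (h' : R1 A (H.D y) c') : R1 A (H.T y) (c' * c ^ ℓ) := by
  have hℓ : ℓ ≠ 0 := NeZero.ne ℓ
  have : NeZero (ℓ * ℓ) := ⟨mul_ne_zero hℓ hℓ⟩
  apply redS_of_qExpand hI hq hA (H.T y) ℓ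
  rw [H.qExpand_T, map_one]
  have h2 : RedS A (qExpand Kbar (ℓ * ℓ) ((H.D y : FB F₀) : LaurentSeries Kbar)) c' 1 := by
    have := RedS.map_qExpand h' (ℓ * ℓ)
    rwa [map_one] at this
  have h3 : ∀ b ∈ Finset.range ℓ, RedS A (twist (zetaK ℓ ^ b) (y : LaurentSeries Kbar)) c 1 := by
    intro b _
    refine RedS.map_twist_one h _ ℓ hℓ ?_
    rw [← pow_mul, mul_comm, pow_mul, (isPrimitiveRoot_zetaK ℓ).pow_eq_one, one_pow]
  have h4 := RedS.prod (Finset.range ℓ) h3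
  have h5 := h2.mul h4
  simpa only [Finset.prod_const, Finset.card_range, one_pow, mul_one] using h5

theorem of_congC (h : CongC F₀ A y) : ∃ c, R1 A y c := exists_redS_of_redC h.redC

theorem congC (hI : IntGen F₀) (hq : q.Prime) (hA : A.LiesOverPrime q) (h : R1 A y c) :
    CongC F₀ A y := by
  apply congC_of_redC hI hq hA y 1
  rw [qExpand_one_apply]
  exact redC_of_redS h

/-- `n`-th roots -/
theorem of_pow (hI : IntGen F₀) (hq : q.Prime) (hA : A.LiesOverPrime q) {n : ℕ} (hn : n ≠ 0)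
    (h : R1 A (y ^ n) c) : ∃ c', R1 A y c' :=
  exists_redS_one_of_pow hI hq hA y hn h

end R1

/-- a sum of `N` elements `≡ 1` is `≡ const` if `q ∤ N` -/
theorem exists_R1_sum (hq : q.Prime) (hA : A.LiesOverPrime q) {ι : Type*} (s : Finset ι)
    (hs : ¬ q ∣ s.card) (Y : ι → FB F₀) (h : ∀ i ∈ s, R1 A (Y i) 1) :
    ∃ c, R1 A (∑ i ∈ s, Y i) c := by
  have := GAL.E.charP_residueField A q hq hA
  have h1 := IntR.sum s (F := fun i => ((Y i : FB F₀) : LaurentSeries Kbar))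
    (R := fun _ => (1 : LaurentSeries (IsLocalRing.ResidueField A)))
    (fun i hi => IntR.of_redS (h i hi))
  have e1 : (∑ _i ∈ s, (1 : LaurentSeries (IsLocalRing.ResidueField A))) =
      HahnSeries.C ((s.card : IsLocalRing.ResidueField A)) := by
    rw [Finset.sum_const, nsmul_eq_mul, mul_one, map_natCast]
  have hne : ((s.card : IsLocalRing.ResidueField A)) ≠ 0 := by
    rw [Ne, CharP.cast_eq_zero_iff (IsLocalRing.ResidueField A) q]
    exact hs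
  rw [e1] at h1
  have h2 := h1.redS (C1.hahnC_ne_zero hne)
  obtain ⟨c, hc⟩ := exists_redS_one_of_C h2
  refine ⟨c, ?_⟩
  have e2 : ((∑ i ∈ s, Y i : FB F₀) : LaurentSeries Kbar) =
      ∑ i ∈ s, ((Y i : FB F₀) : LaurentSeries Kbar) :=
    map_sum (laurentBaseChange Kbar F₀).val _ _
  show RedS A ((∑ i ∈ s, Y i : FB F₀) : LaurentSeries Kbar) c 1
  rw [e2]
  exact hc

/-! ### The field-theoretic core -/

section Core

variable {F₁ : IntermediateField ℚ (LaurentSeries ℚ)} {G : Type} [CommGroup G] [Fintype G]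

theorem core (D : Dia F₁ G) {ℓ : ℕ} [NeZero ℓ] (H₁ : HeckeOp1 F₁ ℓ) (dl : G)
    (hI : IntGen F₁) (hq : q.Prime) (hA : A.LiesOverPrime q) (hcard : ¬ q ∣ Fintype.card G)
    (hD1 : ∀ y, H₁.D y = D.dia dl y) (hT : ∀ d y, D.dia d (H₁.T y) = H₁.T (D.dia d y))
    {n : ℕ} (hn : n ≠ 0) (a f h : FB F₁) (ha : a ≠ 0) (hh : h ≠ 0) (hf : f = a * h ^ n)
    (hfix : ∀ d, D.dia d a = a) (hfc : ∀ d, CongC F₁ A (D.dia d f)) :
    ∃ g₀ : FB F₁, g₀ ≠ 0 ∧ (∀ d, D.dia d g₀ = g₀) ∧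
      ∃ c, R1 A (H₁.T a / a ^ (ℓ + 1) * g₀ ^ n) c := by
  classical
  have hd0 : ∀ (d : G) {y : FB F₁}, y ≠ 0 → D.dia d y ≠ 0 := fun d y hy => by simpa using hy
  have hdd : ∀ (d e : G) (y : FB F₁), D.dia d (D.dia e y) = D.dia (d * e) y := fun d e y => by
    rw [map_mul, AlgEquiv.mul_apply]
  have hf0 : f ≠ 0 := by rw [hf]; exact mul_ne_zero ha (pow_ne_zero _ hh)
  choose cf hcf using fun d => R1.of_congC (hfc d)
  have hcf1 : R1 A f (cf 1) := by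
    have := hcf 1
    rwa [map_one, AlgEquiv.one_apply] at this
  -- the elements `z d`
  obtain ⟨z, hz⟩ : ∃ z : G → FB F₁, ∀ d, z d = D.dia d h / h := ⟨fun d => D.dia d h / h, fun _ => rfl⟩
  have hz0 : ∀ d, z d ≠ 0 := fun d => by rw [hz]; exact div_ne_zero (hd0 d hh) hh
  have hzh : ∀ d, D.dia d h = h * z d := fun d => by rw [hz, mul_div_cancel₀ _ hh]
  have hzn : ∀ d, z d ^ n = D.dia d f / f := by
    intro d
    rw [hf, map_mul, map_pow, hfix, hzh, mul_pow]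
    have h1 : a * h ^ n ≠ 0 := mul_ne_zero ha (pow_ne_zero _ hh)
    rw [eq_div_iff h1]
    ring
  have hza : ∀ d e, ∃ c, R1 A (D.dia e (z d)) c := by
    intro d e
    apply R1.of_pow hI hq hA hn (c := cf (e * d) / cf e)
    rw [← map_pow, hzn, map_div₀, hdd]
    exact (hcf (e * d)).div (hcf e)
  choose az haz using hza
  have haz1 : ∀ d, R1 A (z d) (az d 1) := by
    intro d
    have := haz d 1
    rwa [map_one, AlgEquiv.one_apply] at this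
  -- the element `g`
  obtain ⟨g, hg⟩ : ∃ g : FB F₁, g = H₁.T h / (h ^ ℓ * D.dia dl h) := ⟨_, rfl⟩
  have hTh : H₁.T h ≠ 0 := H₁.T_ne_zero hh
  have hden : h ^ ℓ * D.dia dl h ≠ 0 := mul_ne_zero (pow_ne_zero _ hh) (hd0 dl hh)
  have hg0 : g ≠ 0 := by rw [hg]; exact div_ne_zero hTh hden
  have hdg : ∀ d, D.dia d g / g = H₁.T (z d) / (z d ^ ℓ * D.dia dl (z d)) := by
    intro d
    have e2 : D.dia d (D.dia dl h) = D.dia dl h * D.dia dl (z d) := by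
      rw [← map_mul, ← hzh, hdd, hdd, mul_comm]
    have hzden : z d ^ ℓ * D.dia dl (z d) ≠ 0 := mul_ne_zero (pow_ne_zero _ (hz0 d)) (hd0 dl (hz0 d))
    rw [hg, map_div₀, map_mul, map_pow, hT, e2, hzh, map_mul, mul_pow]
    have hl0 := hd0 dl hh
    have hl1 := hd0 dl (hz0 d)
    have hz0d := hz0 d
    field_simp
  have hdg1 : ∀ d, R1 A (D.dia d g / g) 1 := by
    intro d
    rw [hdg]
    have h2 : R1 A (H₁.D (z d)) (az d dl) := by rw [hD1]; exact haz d dl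
    have h3 := R1.hecke hI hq hA H₁ (haz1 d) h2
    have h4 := ((haz1 d).pow ℓ).mul (haz d dl)
    have h5 := h3.div h4
    have e : az d dl * az d 1 ^ ℓ / (az d 1 ^ ℓ * az d dl) = 1 := by
      rw [mul_comm]
      exact div_self (mul_ne_zero (pow_ne_zero _ (haz1 d).const_ne_zero) (haz d dl).const_ne_zero)
    rwa [e] at h5
  obtain ⟨cs, hcs⟩ := exists_R1_sum hq hA (Finset.univ : Finset G) (by rwa [Finset.card_univ])
    (fun d => D.dia d g / g) (fun d _ => hdg1 d)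
  have hsum : (∑ d, D.dia d g) = g * ∑ d, D.dia d g / g := by
    rw [Finset.mul_sum]
    exact Finset.sum_congr rfl fun d _ => (mul_div_cancel₀ _ hg0).symm
  have hs0 : (∑ d, D.dia d g / g) ≠ 0 := by
    intro h0
    apply RedS.ne_zero hcs
    rw [h0]
    rfl
  refine ⟨∑ d, D.dia d g, ?_, ?_, ?_⟩
  · rw [hsum]
    exact mul_ne_zero hg0 hs0
  · intro e
    rw [map_sum]
    simp only [hdd]
    exact Fintype.sum_equiv (Equiv.mulLeft e) _ _ fun d => rfl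
  · -- the final congruence
    have hTf : R1 A (H₁.T f) (cf dl * cf 1 ^ ℓ) :=
      R1.hecke hI hq hA H₁ hcf1 (by rw [hD1]; exact hcf dl)
    have h6 := (hTf.div ((hcf1.pow ℓ).mul (hcf dl))).mul (hcs.pow n)
    refine ⟨cf dl * cf 1 ^ ℓ / (cf 1 ^ ℓ * cf dl) * cs ^ n, ?_⟩
    have key : ∀ S : FB F₁, H₁.T a / a ^ (ℓ + 1) * (g * S) ^ n =
        H₁.T f / (f ^ ℓ * D.dia dl f) * S ^ n := by
      intro S
      rw [hg, hf, map_mul, map_mul, map_pow, map_pow, hfix, mul_pow, div_pow, mul_pow, mul_pow]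
      have hl0 := hd0 dl hh
      field_simp
      ring
    rw [hsum, key]
    exact h6

end Core

/-! ### The statement on the Kummer modules -/

section Main

variable {F₁ : IntermediateField ℚ (LaurentSeries ℚ)} {G : Type} [CommGroup G] [Fintype G]

/-- **C4 (= INJ).**  If `π^* x` is trivial at all the diamond conjugates of the Gauss valuation, then
`(T_ℓ - ℓ - 1) x` is trivial at the Gauss valuation of the lower level. -/
theorem isKinf_TW_sub (X : Pair F₀ F₁) (D : Dia F₁ G) {ℓ : ℕ} [NeZero ℓ] (H₀ : HeckeOp1 F₀ ℓ)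
    (H₁ : HeckeOp1 F₁ ℓ) (dl : G) (hI₀ : IntGen F₀) (hI : IntGen F₁) (hq : q.Prime)
    (hA : A.LiesOverPrime q) (hcard : ¬ q ∣ Fintype.card G)
    (hfix : ∀ (d : G) (u : FB F₀), D.dia d (alphaB X.le u) = alphaB X.le u)
    (hfixed : ∀ y : FB F₁, (∀ d, D.dia d y = y) → ∃ u : FB F₀, alphaB X.le u = y)
    (hD0 : ∀ u, H₀.D u = u) (hD1 : ∀ y, H₁.D y = D.dia dl y)
    (hT : ∀ d y, D.dia d (H₁.T y) = H₁.T (D.dia d y))
    {n : ℕ} [NeZero n] (x : W1 F₀ n) (hx : IsKD D A (piUp X n x)) :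
    IsKinf A (H₀.TW n x - (ℓ + 1) • x) := by
  obtain ⟨u, rfl⟩ := cls_surjective x
  obtain ⟨f, hf, hfc⟩ := hx
  rw [piUp_cls] at hf
  -- `f = α u * h ^ n`
  set v : kum (FB F₁) n := ⟨upU X.le (u : (FB F₀)ˣ), X.up n _ u.2⟩ with hv
  have h0 : cls (f * v⁻¹) = 0 := by
    rw [← Triv.cls_sub, hf]
    exact sub_self (G := W1 F₁ n) _
  obtain ⟨h, hh⟩ := mem_pows.1 ((cls_eq_zero_iff _).1 h0)
  have hfe : ((f : (FB F₁)ˣ) : FB F₁) =
      alphaB X.le ((u : (FB F₀)ˣ) : FB F₀) * ((h : (FB F₁)ˣ) : FB F₁) ^ n := by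
    have h1 := congrArg (fun t : (FB F₁)ˣ => (t : FB F₁)) hh
    simp only [Units.val_pow_eq_pow_val] at h1
    rw [h1, Triv.coe_mul_inv]
    have hv0 : ((v : (FB F₁)ˣ) : FB F₁) ≠ 0 := Units.ne_zero _
    have hv1 : ((v : (FB F₁)ˣ) : FB F₁) = alphaB X.le ((u : (FB F₀)ˣ) : FB F₀) := rfl
    rw [← hv1, mul_comm, inv_mul_cancel_right₀ hv0]
  have hu0 : ((u : (FB F₀)ˣ) : FB F₀) ≠ 0 := Units.ne_zero _
  have ha0 : alphaB X.le ((u : (FB F₀)ˣ) : FB F₀) ≠ 0 := by simp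
  obtain ⟨g₁, hg₁0, hg₁inv, c, hc⟩ := core D H₁ dl hI hq hA hcard hD1 hT (NeZero.ne n) _ _ _ ha0
    (Units.ne_zero h) hfe (fun d => hfix d _) hfc
  obtain ⟨g₀, rfl⟩ := hfixed g₁ hg₁inv
  have hg₀0 : g₀ ≠ 0 := by
    rintro rfl
    exact hg₁0 (map_zero _)
  -- back to the lower level
  have hTα : H₁.T (alphaB X.le ((u : (FB F₀)ˣ) : FB F₀)) =
      alphaB X.le (H₀.T ((u : (FB F₀)ˣ) : FB F₀)) :=
    heckeOp1_alphaB H₀ H₁ X.le (fun w => by rw [hD1, hfix, hD0]) _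
  rw [hTα, ← map_pow, ← map_pow, ← map_div₀, ← map_mul] at hc
  have hc' : R1 A (H₀.T ((u : (FB F₀)ˣ) : FB F₀) / ((u : (FB F₀)ˣ) : FB F₀) ^ (ℓ + 1) * g₀ ^ n) c := by
    have : RedS A ((alphaB X.le (H₀.T ((u : (FB F₀)ˣ) : FB F₀) / ((u : (FB F₀)ˣ) : FB F₀) ^ (ℓ + 1) *
        g₀ ^ n) : FB F₁) : LaurentSeries Kbar) c 1 := hc
    rwa [coe_alphaB] at this
  have hcong := hc'.congC hI₀ hq hA
  -- the Kummer unit
  let kT : kum (FB F₀) n := ⟨H₀.TU (u : (FB F₀)ˣ), H₀.TU_mem_kum (u : (FB F₀)ˣ) u.2⟩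
  let kp : kum (FB F₀) n := ⟨(Units.mk0 g₀ hg₀0) ^ n, pows_le_kum (FB F₀) n ⟨_, rfl⟩⟩
  have hkp : cls kp = 0 := (cls_eq_zero_iff _).2 ⟨_, rfl⟩
  have hcls : H₀.TW n (cls u) - (ℓ + 1) • cls u = cls (kT * (u ^ (ℓ + 1))⁻¹ * kp) := by
    rw [cls_mul, hkp, ← Triv.cls_sub, cls_pow, H₀.TW_cls]
    exact (add_zero (M := W1 F₀ n) _).symm
  rw [hcls]
  apply isKinf_of_congC
  have hval : (((kT * (u ^ (ℓ + 1))⁻¹ * kp : kum (FB F₀) n) : (FB F₀)ˣ) : FB F₀) =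
      H₀.T ((u : (FB F₀)ˣ) : FB F₀) / ((u : (FB F₀)ˣ) : FB F₀) ^ (ℓ + 1) * g₀ ^ n := by
    rw [Subgroup.coe_mul, Units.val_mul, Triv.coe_mul_inv, div_eq_mul_inv]
    rfl
  rw [hval]
  exact hcong

/-- The same statement for `K_0 = w⁻¹ K_∞`. -/
theorem isK0_TW_sub {G₀ : Type} [CommGroup G₀] (X : Pair F₀ F₁) (D₀ : WTw F₀ G₀) (D : WTw F₁ G)
    {ℓ : ℕ} [NeZero ℓ] (H₀ : HeckeOp1 F₀ ℓ)
    (H₁ : HeckeOp1 F₁ ℓ) (dl : G) (hI₀ : IntGen F₀) (hI : IntGen F₁) (hq : q.Prime)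
    (hA : A.LiesOverPrime q) (hcard : ¬ q ∣ Fintype.card G)
    (hfix : ∀ (d : G) (u : FB F₀), D.dia d (alphaB X.le u) = alphaB X.le u)
    (hfixed : ∀ y : FB F₁, (∀ d, D.dia d y = y) → ∃ u : FB F₀, alphaB X.le u = y)
    (hD0 : ∀ u, H₀.D u = u) (hD1 : ∀ y, H₁.D y = D.dia dl y)
    (hT : ∀ d y, D.dia d (H₁.T y) = H₁.T (D.dia d y))
    (hw : ∀ u : FB F₀, D.w (alphaB X.le u) = alphaB X.le (D₀.w u))
    {n : ℕ} [NeZero n] (hwT : ∀ y : W1 F₀ n, D₀.wW n (H₀.TW n y) = H₀.TW n (D₀.wW n y))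
    (x : W1 F₀ n) (hx : IsK0D D A (piUp X n x)) :
    IsK0 D₀ A (H₀.TW n x - (ℓ + 1) • x) := by
  show IsKinf A (D₀.wW n (H₀.TW n x - (ℓ + 1) • x))
  have e : D₀.wW n (H₀.TW n x - (ℓ + 1) • x) =
      H₀.TW n (D₀.wW n x) - (ℓ + 1) • D₀.wW n x := by
    rw [Triv.end_sub, hwT]
    exact congrArg (H₀.TW n (D₀.wW n x) - ·) (map_nsmul (D₀.wW n) (ℓ + 1) x)
  rw [e]
  refine isKinf_TW_sub X D.toDia H₀ H₁ dl hI₀ hI hq hA hcard hfix hfixed hD0 hD1 hT _ ?_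
  rw [← wW_piUp X D₀ D hw]
  exact hx

end Main

end Fermat.Agent.S43.C4.Direct

end
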