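/-
Row 37 (S43), block C4 (chief helper140) = fields `γ`, `γ'` of `T2.Data` (`gam_i`, `gam_z` of `Lift.Data`).

`F₀ ≤ F₀'` (levels `Γ₀`, `Γ_H`), `FB F₀' / FB F₀` cyclic, generated by the diamond `⟨d⟩` of order dividing `m`, `ℓ ∤ m`
(`A ∣ ℓ`), `m ∣ n m'`.
* `c4_inf`  : `π^* x ∈ K_∞` (all diamond conjugates) `→ ∃ z ∈ ker π^*, m' x - z ∈ K_∞^0`   (Lagrange resolvent, `T2.res_tau`);
* `c4_zero` : the same for `K_0 = w⁻¹ K_∞`;
* `c4_inf_T`, `c4_zero_T` : if `t` (`= T_l`) preserves `K^0` and is `c` on `ker π^*` and `m'` is prime to `n`: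
  `t x - c x ∈ K^0`.
-/
import Fermat.Agent.S43.Triv.Gauss
import Fermat.Agent.S43.Triv.Pi

set_option autoImplicit false

noncomputable section

namespace Fermat.Agent.S43.C4

open ModularCurve AlgebraicCurve Fermat.Agent.S24 Fermat.Agent.S24.B Fermat.Agent.S48.BB
  Fermat.Agent.S48.BB.M Fermat.Agent.S48.BB.E Fermat.Agent.S48.BB.T Fermat.Agent.S43.Ops.Pi
  Fermat.Agent.S43.Triv
open Fermat.Agent.GAL.E (GQ incl red)

variable {F₀ F₀' : IntermediateField ℚ (LaurentSeries ℚ)} {A : ValuationSubring Kbar} {n : ℕ}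

/-- equality of Kummer classes -/
theorem exists_eq_mul_pow {F : Type*} [Field F] [Algebra Kbar F] {u u' : kum F n}
    (h : cls u = cls u') : ∃ s : Fˣ, (u' : Fˣ) = (u : Fˣ) * s ^ n := by
  have h0 : cls (u⁻¹ * u') = 0 := by
    rw [cls_mul, cls_inv, h]
    exact neg_add_cancel (cls u')
  obtain ⟨s, hs⟩ := mem_pows.1 ((cls_eq_zero_iff _).1 h0)
  refine ⟨s, ?_⟩
  rw [hs]
  show (u' : Fˣ) = (u : Fˣ) * ((u : Fˣ)⁻¹ * (u' : Fˣ))
  rw [mul_inv_cancel_left]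

/-- **C4 at `∞`.** -/
theorem c4_inf [NeZero n] (X : Pair F₀ F₀') {G : Type} [Group G] (D : Dia F₀' G)
    {ℓ : ℕ} (hℓ : ℓ.Prime) (hA : A.LiesOverPrime ℓ) (hG0 : IntGen F₀) (hG1 : IntGen F₀')
    (d : G) {m : ℕ} (hm : 0 < m) (hdm : d ^ m = 1) (hℓm : ¬ ℓ ∣ m)
    (hbase : ∀ u : FB F₀, D.dia d (alphaB X.le u) = alphaB X.le u)
    (hfix : ∀ y : FB F₀', D.dia d y = y → ∃ u : FB F₀, alphaB X.le u = y)
    (hram : ∀ f : FB F₀, IsKum (FB F₀') n (alphaB X.le f) → IsKum (FB F₀) n f)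
    {m' : ℕ} (hm' : m ∣ n * m') (x : W1 F₀ n) (hx : IsKD D A (piUp X n x)) :
    ∃ z : W1 F₀ n, piUp X n z = 0 ∧ IsKinf A (m' • x - z) := by
  have hn : 0 < n := Nat.pos_of_ne_zero (NeZero.ne n)
  obtain ⟨g, rfl⟩ := cls_surjective x
  obtain ⟨u, hu, hC⟩ := hx
  rw [piUp_cls] at hu
  obtain ⟨s, hs⟩ := exists_eq_mul_pow hu
  have hs' : alphaB X.le ((g : (FB F₀)ˣ) : FB F₀) = ((u : (FB F₀')ˣ) : FB F₀') * (s : FB F₀') ^ n := by
    have h := congrArg Units.val hs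
    rw [Units.val_mul, Units.val_pow_eq_pow_val] at h
    exact h
  set V := gaussV hG1 hℓ hA with hV
  set γ : FB F₀' ≃ₐ[Kbar] FB F₀' := D.dia d with hγdef
  have hγ : γ ^ m = 1 := by rw [hγdef, ← map_pow, hdm, map_one]
  have hγi : ∀ (i : ℕ) (v : FB F₀), (γ ^ i) (alphaB X.le v) = alphaB X.le v := by
    intro i v
    induction i with
    | zero => rw [pow_zero]; rfl
    | succ i ih =>
      rw [pow_succ]
      show (γ ^ i) (γ (alphaB X.le v)) = _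
      rw [hbase, ih]
  have : NeZero m := ⟨hm.ne'⟩
  obtain ⟨ζ, hζ⟩ := HasEnoughRootsOfUnity.exists_primitiveRoot Kbar m
  obtain ⟨ω, hω⟩ := HasEnoughRootsOfUnity.exists_primitiveRoot Kbar n
  have hs0 : (s : FB F₀') ≠ 0 := s.ne_zero
  have H : ∀ i : ℕ, T2.IsC Kbar V (alphaB X.le ((g : (FB F₀)ˣ) : FB F₀) *
      (((γ ^ i) (s : FB F₀')) ^ n)⁻¹) := by
    intro i
    rw [hV, ← congC_iff]
    have h1 := hC (d ^ i)
    rw [map_pow] at h1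
    have e : (γ ^ i) ((u : (FB F₀')ˣ) : FB F₀') = alphaB X.le ((g : (FB F₀)ˣ) : FB F₀) *
        (((γ ^ i) (s : FB F₀')) ^ n)⁻¹ := by
      have h2 : (γ ^ i) (alphaB X.le ((g : (FB F₀)ˣ) : FB F₀)) =
          (γ ^ i) ((u : (FB F₀')ˣ) : FB F₀') * ((γ ^ i) (s : FB F₀')) ^ n := by
        rw [hs', map_mul, map_pow]
      rw [hγi] at h2
      rw [h2, mul_inv_cancel_right₀ (pow_ne_zero n ((map_ne_zero _).2 hs0))]
    rw [← e]
    exact h1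
  obtain ⟨θ₁, hθ0, hθfix, hθC⟩ := T2.res_tau V γ hm hn hγ
    (valuation_natCast_eq_one hG1 hℓ hA m hℓm) hζ hω H hm'
  obtain ⟨τ₀, hτ₀⟩ := hfix _ hθfix
  have hτ00 : τ₀ ≠ 0 := by
    rintro rfl
    rw [map_zero] at hτ₀
    exact pow_ne_zero n hθ0 hτ₀.symm
  have hτk : IsKum (FB F₀) n τ₀ := hram τ₀ (by rw [hτ₀]; exact isKum_pow_self n θ₁)
  let t : kum (FB F₀) n := ⟨Units.mk0 τ₀ hτ00, hτk⟩
  refine ⟨cls t, ?_, ?_⟩
  · rw [piUp_cls, cls_eq_zero_iff]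
    exact mem_pows_of_eq_pow (w := θ₁) hτ₀
  · rw [← cls_pow, cls_sub]
    apply isKinf_of_congC
    apply congC_of_redC hG0 hℓ hA _ 1
    rw [qExpand_one_apply, ← coe_alphaB X.le]
    apply CongC.redC (F₀ := F₀')
    rw [congC_iff hG1 hℓ hA]
    have e : alphaB X.le (((g ^ m' * t⁻¹ : kum (FB F₀) n) : (FB F₀)ˣ) : FB F₀) =
        alphaB X.le ((g : (FB F₀)ˣ) : FB F₀) ^ m' * (θ₁ ^ n)⁻¹ := by
      rw [← hτ₀, ← map_pow, ← map_inv₀, ← map_mul]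
      congr 1
    rw [e]
    exact hθC

/-- **C4 at `0`.** -/
theorem c4_zero [NeZero n] (X : Pair F₀ F₀') {G₀ G : Type} [CommGroup G₀] [CommGroup G]
    (D₀ : WTw F₀ G₀) (D : WTw F₀' G)
    {ℓ : ℕ} (hℓ : ℓ.Prime) (hA : A.LiesOverPrime ℓ) (hG0 : IntGen F₀) (hG1 : IntGen F₀')
    (d : G) {m : ℕ} (hm : 0 < m) (hdm : d ^ m = 1) (hℓm : ¬ ℓ ∣ m)
    (hbase : ∀ u : FB F₀, D.dia d (alphaB X.le u) = alphaB X.le u)
    (hfix : ∀ y : FB F₀', D.dia d y = y → ∃ u : FB F₀, alphaB X.le u = y)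
    (hram : ∀ f : FB F₀, IsKum (FB F₀') n (alphaB X.le f) → IsKum (FB F₀) n f)
    (hw : ∀ u : FB F₀, D.w (alphaB X.le u) = alphaB X.le (D₀.w u))
    {m' : ℕ} (hm' : m ∣ n * m') (x : W1 F₀ n) (hx : IsK0D D A (piUp X n x)) :
    ∃ z : W1 F₀ n, piUp X n z = 0 ∧ IsK0 D₀ A (m' • x - z) := by
  have hx' : IsKD D.toDia A (piUp X n (D₀.wW n x)) := by
    rw [← wW_piUp X D₀ D hw]
    exact hx
  obtain ⟨z', hz', hK⟩ := c4_inf X D.toDia hℓ hA hG0 hG1 d hm hdm hℓm hbase hfix hram hm' _ hx'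
  refine ⟨D₀.wWinv n z', ?_, ?_⟩
  · have h1 : D.wW n (piUp X n (D₀.wWinv n z')) = 0 := by
      rw [wW_piUp X D₀ D hw, WTw.wW_wWinv, hz']
    have h2 := congrArg (D.wWinv n) h1
    rwa [WTw.wWinv_wW, map_zero] at h2
  · show IsKinf A (D₀.wW n (m' • x - D₀.wWinv n z'))
    rw [end_sub, WTw.wW_wWinv, map_nsmul]
    exact hK

/-- pure algebra: from `m' x - z ∈ K`, `t z = c z` to `t x - c x ∈ K`. -/
theorem sub_mem_of_ker {W : Type*} [AddCommGroup W] (hn : ∀ y : W, n • y = 0)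
    (K : AddSubgroup W) (t : AddMonoid.End W) (hK : ∀ y ∈ K, t y ∈ K) (c : ℕ) {m' : ℕ}
    (hcop : m'.Coprime n) {x z : W} (hz : t z = c • z) (h : m' • x - z ∈ K) :
    t x - c • x ∈ K := by
  have h1 : m' • (t x - c • x) ∈ K := by
    have h2 := K.sub_mem (hK _ h) (K.nsmul_mem h c)
    have e : t (m' • x - z) - c • (m' • x - z) = m' • (t x - c • x) := by
      rw [map_sub, map_nsmul, hz, smul_sub, smul_sub, smul_comm c m' x]
      abel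
    rwa [e] at h2
  -- `a m' = 1 + b n`
  rcases Nat.eq_zero_or_pos n with rfl | hn0
  · rw [Nat.coprime_zero_right] at hcop
    rwa [hcop, one_smul] at h1
  rcases Nat.eq_or_lt_of_le (Nat.succ_le_of_lt hn0) with h1' | h1'
  · have h0 := hn (t x - c • x)
    rw [← h1'] at h0
    rw [← one_smul ℕ (t x - c • x)]
    rw [show (1 : ℕ) • (t x - c • x) = 0 from h0]
    exact K.zero_mem
  have hbez : ∃ a b : ℕ, a * m' = 1 + b * n := by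
    obtain ⟨a, -, ha⟩ := Nat.exists_mul_mod_eq_one_of_coprime hcop h1'
    refine ⟨a, m' * a / n, ?_⟩
    have := Nat.mod_add_div (m' * a) n
    rw [ha] at this
    rw [mul_comm a m', mul_comm _ n]
    exact this.symm
  obtain ⟨a, b, hab⟩ := hbez
  have h3 := K.nsmul_mem h1 a
  rwa [← mul_smul, hab, add_smul, one_smul, mul_smul, hn, smul_zero, add_zero] at h3

/-- the trivial diamond datum (level `Γ₀`) -/
def trivDia (F₀ : IntermediateField ℚ (LaurentSeries ℚ)) : Dia F₀ Unit where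
  dia := 1
  galF_dia := fun _ _ _ => rfl

theorem isKD_trivDia_iff [NeZero n] {x : W1 F₀ n} : IsKD (trivDia F₀) A x ↔ IsKinf A x :=
  ⟨fun h => h.isKinf, fun ⟨u, hu, h⟩ => ⟨u, hu, fun _ => h.congC⟩⟩

/-- `K_∞^0` is stable under `T_l` (level `Γ₀`: trivial diamond). -/
theorem isKinf_TW [NeZero n] (hG : IntGen F₀) {ℓ : ℕ} (hℓ : ℓ.Prime) (hA : A.LiesOverPrime ℓ)
    {l : ℕ} [NeZero l] (H : HeckeOp1 F₀ l) (hD : H.D = 1) {x : W1 F₀ n} (hx : IsKinf A x) :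
    IsKinf A (H.TW n x) :=
  isKD_trivDia_iff.1 (IsKD.TW (D := trivDia F₀) hG hℓ hA H () (by rw [hD]; rfl) (fun _ _ => rfl)
    (isKD_trivDia_iff.2 hx))

/-- **C4 at `∞`, Hecke form**: `π^* x ∈ K_∞ → (T_l - l - 1) x ∈ K_∞^0`. -/
theorem c4_inf_T [NeZero n] (X : Pair F₀ F₀') {G : Type} [Group G] (D : Dia F₀' G)
    {ℓ : ℕ} (hℓ : ℓ.Prime) (hA : A.LiesOverPrime ℓ) (hG0 : IntGen F₀) (hG1 : IntGen F₀')
    (d : G) {m : ℕ} (hm : 0 < m) (hdm : d ^ m = 1) (hℓm : ¬ ℓ ∣ m)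
    (hbase : ∀ u : FB F₀, D.dia d (alphaB X.le u) = alphaB X.le u)
    (hfix : ∀ y : FB F₀', D.dia d y = y → ∃ u : FB F₀, alphaB X.le u = y)
    (hram : ∀ f : FB F₀, IsKum (FB F₀') n (alphaB X.le f) → IsKum (FB F₀) n f)
    {m' : ℕ} (hm' : m ∣ n * m') (hcop : m'.Coprime n)
    {l : ℕ} [NeZero l] (H0 : HeckeOp1 F₀ l) (hH0 : H0.D = 1)
    (hker : ∀ z : W1 F₀ n, piUp X n z = 0 → H0.TW n z = (l + 1) • z)
    (x : W1 F₀ n) (hx : IsKD D A (piUp X n x)) : IsKinf A (H0.TW n x - (l + 1) • x) := by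
  obtain ⟨z, hz, hK⟩ := c4_inf X D hℓ hA hG0 hG1 d hm hdm hℓm hbase hfix hram hm' x hx
  have hstab : ∀ y ∈ Kinf F₀ A n, H0.TW n y ∈ Kinf F₀ A n :=
    fun y hy => isKinf_TW hG0 hℓ hA H0 hH0 hy
  have hK' : m' • x - z ∈ Kinf F₀ A n := hK
  exact sub_mem_of_ker (n := n) (W := W1 F₀ n) nsmul_W (Kinf F₀ A n) (H0.TW n) hstab (l + 1) hcop
    (hker z hz) hK'

/-- **C4 at `0`, Hecke form**: `π^* x ∈ K_0 → (T_l - l - 1) x ∈ K_0^0`. -/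
theorem c4_zero_T [NeZero n] (X : Pair F₀ F₀') {G₀ G : Type} [CommGroup G₀] [CommGroup G]
    (D₀ : WTw F₀ G₀) (D : WTw F₀' G)
    {ℓ : ℕ} (hℓ : ℓ.Prime) (hA : A.LiesOverPrime ℓ) (hG0 : IntGen F₀) (hG1 : IntGen F₀')
    (d : G) {m : ℕ} (hm : 0 < m) (hdm : d ^ m = 1) (hℓm : ¬ ℓ ∣ m)
    (hbase : ∀ u : FB F₀, D.dia d (alphaB X.le u) = alphaB X.le u)
    (hfix : ∀ y : FB F₀', D.dia d y = y → ∃ u : FB F₀, alphaB X.le u = y)
    (hram : ∀ f : FB F₀, IsKum (FB F₀') n (alphaB X.le f) → IsKum (FB F₀) n f)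
    (hw : ∀ u : FB F₀, D.w (alphaB X.le u) = alphaB X.le (D₀.w u))
    {m' : ℕ} (hm' : m ∣ n * m') (hcop : m'.Coprime n)
    {l : ℕ} [NeZero l] (H0 : HeckeOp1 F₀ l) (hH0 : H0.D = 1)
    (hwT : ∀ y : W1 F₀ n, D₀.wW n (H0.TW n y) = H0.TW n (D₀.wW n y))
    (hker : ∀ z : W1 F₀ n, piUp X n z = 0 → H0.TW n z = (l + 1) • z)
    (x : W1 F₀ n) (hx : IsK0D D A (piUp X n x)) : IsK0 D₀ A (H0.TW n x - (l + 1) • x) := by
  obtain ⟨z, hz, hK⟩ := c4_zero X D₀ D hℓ hA hG0 hG1 d hm hdm hℓm hbase hfix hram hw hm' x hx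
  let wf : W1 F₀ n →+ W1 F₀ n := D₀.wW n
  have hstab : ∀ y ∈ (Kinf F₀ A n).comap wf, H0.TW n y ∈ (Kinf F₀ A n).comap wf := by
    intro y hy
    show IsKinf A (D₀.wW n (H0.TW n y))
    rw [hwT]
    exact isKinf_TW hG0 hℓ hA H0 hH0 hy
  have hK' : m' • x - z ∈ (Kinf F₀ A n).comap wf := hK
  exact sub_mem_of_ker (n := n) (W := W1 F₀ n) nsmul_W ((Kinf F₀ A n).comap wf) (H0.TW n) hstab
    (l + 1) hcop (hker z hz) hK'

/-- pure algebra, the last step to the fields `γ`, `γ'` of `T2.Data`: `N₀` commutes with `t`, `t - c` is injective. -/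
theorem gamma_of {W₀ : Type*} [AddCommGroup W₀] (N₀ t : W₀ →+ W₀) (c : ℕ)
    (hcomm : ∀ y, N₀ (t y) = t (N₀ y)) (hinj : ∀ y, t y = c • y → y = 0) {y : W₀}
    (h : N₀ (t y - c • y) = 0) : N₀ y = 0 := by
  apply hinj
  rw [map_sub, map_nsmul, hcomm, sub_eq_zero] at h
  exact h

end Fermat.Agent.S43.C4

end
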