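/-
Row 37 (S43), block C4 (chief helper140).  From the C4 export `(T_l - l - 1) y ∈ K^0` to the fields `γ`, `γ'` of `Glue.Raw`
(`∀ y ∈ loc t₀, up y ∈ K → y ∈ Y₀`).  Pure algebra (Mathlib + `LocZ`).

`mem_of_add_zsmul_mem` : `Y` a subgroup stable under `t i`, `c` prime to `p`, `x ∈ loc t`, `t i x + c x ∈ Y  ⟹  x ∈ Y`.
-/
import Fermat.Agent.S43.H.LocZ

set_option autoImplicit false

namespace Fermat.Agent.S43.C4

open Fermat.Agent.S43.LocZ

theorem mem_of_coprime_zsmul_mem {A : Type*} [AddCommGroup A] {p k : ℕ}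
    (hA : ∀ x : A, p ^ k • x = 0) {c : ℤ} (hc : IsCoprime c (p : ℤ)) (Y : AddSubgroup A) {x : A}
    (h : c • x ∈ Y) : x ∈ Y := by
  obtain ⟨u, v, huv⟩ := IsCoprime.pow_right (n := k) hc
  have h0 : ((p : ℤ) ^ k) • x = 0 := by
    have := hA x
    rwa [← natCast_zsmul, Nat.cast_pow] at this
  have h1 : x = u • (c • x) := by
    calc x = (u * c + v * (p : ℤ) ^ k) • x := by rw [huv, one_smul]
      _ = u • (c • x) := by rw [add_smul, mul_smul, mul_smul, h0, smul_zero, add_zero]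
  rw [h1]
  exact Y.zsmul_mem h u

theorem mem_of_iterate {A : Type*} [AddCommGroup A] {p k : ℕ} (hA : ∀ x : A, p ^ k • x = 0) {c : ℤ}
    (hc : IsCoprime c (p : ℤ)) (τ : A →+ A) (Y : AddSubgroup A) (hY : ∀ y ∈ Y, τ y ∈ Y) (N : ℕ) :
    ∀ x : A, (τ^[N]) x = 0 → τ x + c • x ∈ Y → x ∈ Y := by
  induction N with
  | zero =>
    intro x hx _
    have : x = 0 := hx
    rw [this]
    exact Y.zero_mem
  | succ N ih =>
    intro x hx h
    have h1 : τ x ∈ Y := by
      apply ih (τ x)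
      · rwa [Function.iterate_succ_apply] at hx
      · have := hY _ h
        rwa [map_add, map_zsmul] at this
    apply mem_of_coprime_zsmul_mem hA hc Y
    have := Y.sub_mem h h1
    rwa [add_sub_cancel_left] at this

/-- `η = t i + c` reflects membership in a `t i`-stable subgroup, on the `m`-part. -/
theorem mem_of_add_zsmul_mem {ι A : Type*} [AddCommGroup A] {p k : ℕ} {t : ι → A →+ A}
    (hA : ∀ x : A, p ^ k • x = 0) {c : ℤ} (hc : IsCoprime c (p : ℤ)) (i : ι) (Y : AddSubgroup A)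
    (hY : ∀ y ∈ Y, t i y ∈ Y) {x : A} (hx : x ∈ loc t) (h : t i x + c • x ∈ Y) : x ∈ Y := by
  obtain ⟨N, hN⟩ := hx i
  exact mem_of_iterate hA hc (t i) Y hY N x hN h

end Fermat.Agent.S43.C4
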