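/-
Row 37 (S43), block C4 (chief helper140), THE CONCRETE INSTANCE at `(q, M)` (helper210): the fields `γ`, `γ'` of `Glue.Raw`
for the objects of `Glue/Conc/Defs.lean`:
  `t₀ = Conc.t0 q M Wm p n`, `up = Ops.Pi.up q M n`, `K = Triv.KD D.toDia A n`, `K' = Triv.K0D D A n`,
  `Y₀ = Triv.Kinf (F0 q M) A n`,  `D : Triv.WTw (F1 q M) (ZMod q)ˣ` with `D.dia = Ops.dia q M`.

* `gamma`   : `∀ y ∈ loc t₀, up y ∈ K → y ∈ Y₀`      (no hypothesis on `w`);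
* `gammaZ`  : `∀ y ∈ loc t₀, up y ∈ K' → IsK0 D₀ A y` (`D₀` the Atkin-Lehner datum of level `Γ₀`, compatible with `D`,
               commuting with ONE `T_ℓ`);
* `gamma'`  : `∀ y ∈ loc t₀, up y ∈ K' → y ∈ Y₀`, from `gammaZ` and the L0 fact `K_0^0 ∩ loc ≤ K_∞^0`
               (`L0.Abs.mem_of_w_mem`).
-/
import Fermat.Agent.S43.C4.Direct
import Fermat.Agent.S43.C4.Main
import Fermat.Agent.S43.C4.Raw
import Fermat.Agent.S43.Triv.Inst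
import Fermat.Agent.S43.Glue.Conc.Defs

set_option autoImplicit false

noncomputable section

namespace Fermat.Agent.S43.C4.Inst

open ModularCurve AlgebraicCurve
open Fermat.Agent.S24 Fermat.Agent.S48.BB Fermat.Agent.S48.BB.E Fermat.Agent.S48.BB.M
  Fermat.Agent.S48.BB.T Fermat.Agent.S43.Glue.Conc Fermat.Agent.S43.Triv
open Fermat.Agent.GAL.E (GQ)

variable {q M : ℕ} [NeZero q] [NeZero M] {A : ValuationSubring Kbar}

theorem not_dvd_card_units (hq : q.Prime) : ¬ q ∣ Fintype.card (ZMod q)ˣ := by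
  have : Fact q.Prime := ⟨hq⟩
  rw [ZMod.card_units]
  intro h
  have h1 := Nat.le_of_dvd (by have := hq.two_le; omega) h
  have := hq.two_le
  omega

theorem nsmul_eq_zero_of_dvd {F₀ : IntermediateField ℚ (LaurentSeries ℚ)} {n m : ℕ} (h : n ∣ m)
    (x : W1 F₀ n) : m • x = 0 := by
  obtain ⟨c, rfl⟩ := h
  rw [mul_comm, mul_nsmul, nsmul_W]

/-- `(T_ℓ - ℓ - 1) y ∈ K_∞^0` if `π^* y ∈ K_∞`. -/
theorem isKinf_T0_sub (hq : q.Prime) (hA : A.LiesOverPrime q) (D : Dia (F1 q M) (ZMod q)ˣ)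
    (hD : D.dia = Ops.dia q M) {l : ℕ} (hl : l.Prime) (hlN : ¬ l ∣ q * M) {n : ℕ} [NeZero n]
    (y : V0 q M n) (hy : IsKD D A (Ops.Pi.up q M n y)) :
    IsKinf A (T0 q M hl hlN n y - (l + 1) • y) := by
  have : NeZero l := ⟨hl.ne_zero⟩
  exact Direct.isKinf_TW_sub (Ops.Pi.pair q M) D (H0 q M hl hlN) (H1 q M hl hlN) (unitL hl hlN)
    (intGen0 q M) (intGen1 q M) hq hA (not_dvd_card_units hq)
    (fun d u => by rw [hD]; exact Ops.dia_alphaB d u)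
    (fun z hz => Ops.exists_alphaB_eq_of_dia z fun d => by rw [← hD]; exact hz d)
    (fun _ => rfl)
    (fun z => by rw [hD]; exact DFunLike.congr_fun (heckeOpT_D_eq_dia hl hlN) z)
    (fun d z => by rw [hD]; exact (T_dia hl hlN d z).symm) y hy

/-- `K_∞^0` is stable under `T_ℓ`. -/
theorem isKinf_T0 (hq : q.Prime) (hA : A.LiesOverPrime q) {l : ℕ} (hl : l.Prime)
    (hlN : ¬ l ∣ q * M) {n : ℕ} [NeZero n] {y : V0 q M n} (hy : IsKinf A y) :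
    IsKinf A (T0 q M hl hlN n y) := by
  have : NeZero l := ⟨hl.ne_zero⟩
  exact C4.isKinf_TW (intGen0 q M) hq hA (H0 q M hl hlN) rfl hy

theorem sub_add_zsmul_aux {B : Type*} [AddCommGroup B] (z y : B) (a : ℤ) (l : ℕ) :
    z - a • y + (a - l - 1 : ℤ) • y = z - (l + 1) • y := by
  rw [sub_smul, sub_smul, one_smul, add_smul, one_smul, natCast_zsmul]
  abel

variable (Wm : WeierstrassCurve ℤ) (p : ℕ)

/-- `t₀ i + (a_ℓ - ℓ - 1) = T_ℓ - ℓ - 1` -/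
theorem t0_add (i : Idx Wm (q * M * p)) (n : ℕ) (y : V0 q M n) :
    t0 q M Wm p n (Sum.inl i) y + (Wm.apOfModel i.1 - i.1 - 1 : ℤ) • y =
      T0 q M i.2.1 (i.not_dvd q M Wm p) n y - (i.1 + 1) • y := by
  show opSub (A := V0 q M n) (T0 q M i.2.1 (i.not_dvd q M Wm p) n) (Wm.apOfModel i.1) y + _ = _
  rw [opSub_apply]
  exact sub_add_zsmul_aux _ _ _ _

/-- a subgroup stable under `T_ℓ` is stable under `t₀ (inl ℓ)` -/
theorem t0_mem (i : Idx Wm (q * M * p)) {n : ℕ} (Y : AddSubgroup (V0 q M n))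
    (hY : ∀ y ∈ Y, T0 q M i.2.1 (i.not_dvd q M Wm p) n y ∈ Y) :
    ∀ y ∈ Y, t0 q M Wm p n (Sum.inl i) y ∈ Y := by
  intro y hy
  show opSub (A := V0 q M n) (T0 q M i.2.1 (i.not_dvd q M Wm p) n) (Wm.apOfModel i.1) y ∈ Y
  rw [opSub_apply]
  exact Y.sub_mem (hY y hy) (Y.zsmul_mem hy _)

variable {Wm p}

/-- **The field `γ` of `Glue.Raw`.** -/
theorem gamma (hq : q.Prime) (hA : A.LiesOverPrime q) (D : Dia (F1 q M) (ZMod q)ˣ)
    (hD : D.dia = Ops.dia q M) (i₀ : Idx Wm (q * M * p))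
    (hi₀ : IsCoprime (Wm.apOfModel i₀.1 - i₀.1 - 1 : ℤ) (p : ℤ)) {n k : ℕ} [NeZero n]
    (hnk : n ∣ p ^ k) :
    ∀ y ∈ LocZ.loc (A := V0 q M n) (t0 q M Wm p n), Ops.Pi.up q M n y ∈ KD D A n →
      y ∈ Kinf (F0 q M) A n := by
  intro y hy hK
  refine mem_of_add_zsmul_mem (A := V0 q M n) (k := k) (nsmul_eq_zero_of_dvd hnk) hi₀ (Sum.inl i₀)
    (Kinf (F0 q M) A n) (t0_mem Wm p i₀ _ fun z hz => isKinf_T0 hq hA _ _ hz) hy ?_
  rw [t0_add]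
  exact isKinf_T0_sub hq hA D hD _ _ y hK

/-- `π^* y ∈ K_0 ⟹ y ∈ K_0^0` on the `m`-part. -/
theorem gammaZ {G₀ : Type} [CommGroup G₀] (hq : q.Prime) (hA : A.LiesOverPrime q)
    (D : WTw (F1 q M) (ZMod q)ˣ) (hD : D.dia = Ops.dia q M) (D₀ : WTw (F0 q M) G₀)
    (hw : ∀ u : FB (F0 q M), D.w (alphaB (Ops.Pi.pair q M).le u) =
      alphaB (Ops.Pi.pair q M).le (D₀.w u))
    (i₀ : Idx Wm (q * M * p))
    (hi₀ : IsCoprime (Wm.apOfModel i₀.1 - i₀.1 - 1 : ℤ) (p : ℤ)) {n k : ℕ} [NeZero n]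
    (hnk : n ∣ p ^ k)
    (hwT : ∀ y : V0 q M n, D₀.wW n (T0 q M i₀.2.1 (i₀.not_dvd q M Wm p) n y) =
      T0 q M i₀.2.1 (i₀.not_dvd q M Wm p) n (D₀.wW n y)) :
    ∀ y ∈ LocZ.loc (A := V0 q M n) (t0 q M Wm p n), Ops.Pi.up q M n y ∈ K0D D A n →
      IsK0 D₀ A y := by
  intro y hy hK
  let wf : V0 q M n →+ V0 q M n := D₀.wW n
  have key : y ∈ (Kinf (F0 q M) A n).comap wf := by
    refine mem_of_add_zsmul_mem (A := V0 q M n) (k := k) (nsmul_eq_zero_of_dvd hnk) hi₀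
      (Sum.inl i₀) ((Kinf (F0 q M) A n).comap wf) (t0_mem Wm p i₀ _ fun z hz => ?_) hy ?_
    · show IsKinf A (D₀.wW n (T0 q M i₀.2.1 (i₀.not_dvd q M Wm p) n z))
      rw [hwT]
      exact isKinf_T0 hq hA _ _ hz
    · rw [t0_add]
      have : NeZero i₀.1 := ⟨i₀.2.1.ne_zero⟩
      exact Direct.isK0_TW_sub (Ops.Pi.pair q M) D₀ D (H0 q M i₀.2.1 (i₀.not_dvd q M Wm p))
        (H1 q M i₀.2.1 (i₀.not_dvd q M Wm p)) (unitL i₀.2.1 (i₀.not_dvd q M Wm p))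
        (intGen0 q M) (intGen1 q M) hq hA (not_dvd_card_units hq)
        (fun d u => by rw [hD]; exact Ops.dia_alphaB d u)
        (fun z hz => Ops.exists_alphaB_eq_of_dia z fun d => by rw [← hD]; exact hz d)
        (fun _ => rfl)
        (fun z => by rw [hD]; exact DFunLike.congr_fun (heckeOpT_D_eq_dia _ _) z)
        (fun d z => by rw [hD]; exact (T_dia _ _ d z).symm) hw hwT y hK
  exact key

/-- **The field `γ'` of `Glue.Raw`.** -/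
theorem gamma' {G₀ : Type} [CommGroup G₀] (hq : q.Prime) (hA : A.LiesOverPrime q)
    (D : WTw (F1 q M) (ZMod q)ˣ) (hD : D.dia = Ops.dia q M) (D₀ : WTw (F0 q M) G₀)
    (hw : ∀ u : FB (F0 q M), D.w (alphaB (Ops.Pi.pair q M).le u) =
      alphaB (Ops.Pi.pair q M).le (D₀.w u))
    (i₀ : Idx Wm (q * M * p))
    (hi₀ : IsCoprime (Wm.apOfModel i₀.1 - i₀.1 - 1 : ℤ) (p : ℤ)) {n k : ℕ} [NeZero n]
    (hnk : n ∣ p ^ k)
    (hwT : ∀ y : V0 q M n, D₀.wW n (T0 q M i₀.2.1 (i₀.not_dvd q M Wm p) n y) =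
      T0 q M i₀.2.1 (i₀.not_dvd q M Wm p) n (D₀.wW n y))
    (hL0 : ∀ y ∈ LocZ.loc (A := V0 q M n) (t0 q M Wm p n), IsKinf A (D₀.wW n y) → IsKinf A y) :
    ∀ y ∈ LocZ.loc (A := V0 q M n) (t0 q M Wm p n), Ops.Pi.up q M n y ∈ K0D D A n →
      y ∈ Kinf (F0 q M) A n :=
  fun y hy hK => hL0 y hy (gammaZ hq hA D hD D₀ hw i₀ hi₀ hnk hwT y hy hK)

end Fermat.Agent.S43.C4.Inst

end
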