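/-
Row 37 (S43), block C4 (chief helper140), leaf KERUP, concrete form (helper210).
`ker π^*` is Eisenstein, in the language of `Ops.Pi` (`Pair`, `piUp`) and `HeckeOp1`:
`piUp X n z = 0 → H0.TW n z = (l + 1) • z`.

PROOF (port of `Free/KerUp.lean`).  `z = cls u₀`, `α u₀ = v ^ n`; `(g v / v) ^ n = 1`, so `g v = ζ v` with `ζ` a constant;
`g (T v) = T (g v) = ζ ^ (l + 1) T v` and `g (v ^ (l + 1)) = ζ ^ (l + 1) v ^ (l + 1)`, so `T v / v ^ (l + 1)` is fixed by `g`,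
`= α s`; `α (T u₀) = T (v ^ n) = (v ^ (l + 1) α s) ^ n = α (u₀ ^ (l + 1) s ^ n)`.
-/
import Fermat.Agent.S43.Ops.Pi.Kum

set_option autoImplicit false

noncomputable section

namespace Fermat.Agent.S43.C4

open ModularCurve AlgebraicCurve Fermat.Agent.S24 Fermat.Agent.S24.B Fermat.Agent.S48.BB
  Fermat.Agent.S48.BB.M Fermat.Agent.S48.BB.E Fermat.Agent.S48.BB.T Fermat.Agent.S43.Ops.Pi

variable {F₀ F₀' : IntermediateField ℚ (LaurentSeries ℚ)}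

/-- roots of unity of a field over `ℚ̄` are constants -/
theorem exists_const_of_pow_eq_one {L : Type*} [Field L] [Algebra Kbar L] {n : ℕ} (hn : 0 < n)
    (z : L) (hz : z ^ n = 1) : ∃ a : Kbar, algebraMap Kbar L a = z := by
  have hint : IsIntegral Kbar z := by
    refine ⟨Polynomial.X ^ n - Polynomial.C 1, Polynomial.monic_X_pow_sub_C 1 hn.ne', ?_⟩
    rw [Polynomial.eval₂_sub, Polynomial.eval₂_pow, Polynomial.eval₂_X, Polynomial.eval₂_C, hz,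
      map_one, sub_self]
  have hdeg := IsAlgClosed.degree_eq_one_of_irreducible Kbar (minpoly.irreducible hint)
  exact minpoly.mem_range_of_degree_eq_one Kbar z hdeg

/-- **(KERUP), element form.** -/
theorem kerUp_elem {l : ℕ} [NeZero l] (hF : F₀ ≤ F₀') (H0 : HeckeOp1 F₀ l) (H1 : HeckeOp1 F₀' l)
    (g : FB F₀' ≃ₐ[Kbar] FB F₀')
    (hbase : ∀ u : FB F₀, g (alphaB hF u) = alphaB hF u)
    (hfix : ∀ y : FB F₀', g y = y → ∃ u : FB F₀, alphaB hF u = y)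
    (hT : ∀ u : FB F₀, H1.T (alphaB hF u) = alphaB hF (H0.T u))
    (hg : ∀ y : FB F₀', H1.T (g y) = g (H1.T y)) {n : ℕ} (hn : 0 < n)
    (u₀ : FB F₀) (v : FB F₀') (hv0 : v ≠ 0) (hv : alphaB hF u₀ = v ^ n) :
    ∃ s : FB F₀, s ≠ 0 ∧ H0.T u₀ = s ^ n * u₀ ^ (l + 1) := by
  -- `g v = ζ v`
  have hz : (g v * v⁻¹) ^ n = 1 := by
    rw [mul_pow, inv_pow, ← map_pow, ← hv, hbase, mul_inv_cancel₀]
    rw [hv]
    exact pow_ne_zero n hv0
  obtain ⟨a, ha⟩ := exists_const_of_pow_eq_one hn _ hz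
  have hgv : g v = algebraMap Kbar (FB F₀') a * v := by
    rw [ha, inv_mul_cancel_right₀ hv0]
  have hTv0 : H1.T v ≠ 0 := H1.T_ne_zero hv0
  have hvc0 : v ^ (l + 1) ≠ 0 := pow_ne_zero _ hv0
  have h1 : g (H1.T v) = algebraMap Kbar (FB F₀') (a ^ (l + 1)) * H1.T v := by
    rw [← hg, hgv, map_mul, H1.T_algebraMap]
  have h2 : g (v ^ (l + 1)) = algebraMap Kbar (FB F₀') (a ^ (l + 1)) * v ^ (l + 1) := by
    rw [map_pow, hgv, mul_pow, map_pow]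
  have ha0 : algebraMap Kbar (FB F₀') (a ^ (l + 1)) ≠ 0 := by
    intro h0
    rw [h0, zero_mul] at h2
    exact hvc0 ((map_eq_zero g).1 h2)
  have hfx : g (H1.T v * (v ^ (l + 1))⁻¹) = H1.T v * (v ^ (l + 1))⁻¹ := by
    rw [map_mul, map_inv₀, h1, h2, mul_inv, mul_mul_mul_comm, mul_inv_cancel₀ ha0, one_mul]
  obtain ⟨s, hs⟩ := hfix _ hfx
  have hTv : H1.T v = alphaB hF s * v ^ (l + 1) := by
    rw [hs, inv_mul_cancel_right₀ hvc0]
  refine ⟨s, ?_, ?_⟩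
  · rintro rfl
    rw [map_zero, zero_mul] at hTv
    exact hTv0 hTv
  · apply alphaB_injective hF
    rw [← hT, hv, map_pow, hTv, mul_pow, map_mul, map_pow, map_pow, hv, ← pow_mul, ← pow_mul,
      mul_comm n (l + 1)]

/-- **(KERUP)**: `ker π^*` is Eisenstein. -/
theorem kerUp {l : ℕ} [NeZero l] (X : Pair F₀ F₀') (H0 : HeckeOp1 F₀ l) (H1 : HeckeOp1 F₀' l)
    (g : FB F₀' ≃ₐ[Kbar] FB F₀')
    (hbase : ∀ u : FB F₀, g (alphaB X.le u) = alphaB X.le u)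
    (hfix : ∀ y : FB F₀', g y = y → ∃ u : FB F₀, alphaB X.le u = y)
    (hT : ∀ u : FB F₀, H1.T (alphaB X.le u) = alphaB X.le (H0.T u))
    (hg : ∀ y : FB F₀', H1.T (g y) = g (H1.T y)) {n : ℕ} (hn : 0 < n)
    (z : W1 F₀ n) (hz : piUp X n z = 0) : H0.TW n z = (l + 1) • z := by
  obtain ⟨u₀, rfl⟩ := cls_surjective z
  rw [piUp_cls, cls_eq_zero_iff] at hz
  obtain ⟨v, hv⟩ := mem_pows.mp hz
  have hv' : alphaB X.le ((u₀ : (FB F₀)ˣ) : FB F₀) = (v : FB F₀') ^ n := by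
    have := congrArg (fun w : (FB F₀')ˣ => (w : FB F₀')) hv
    simp only [Units.val_pow_eq_pow_val] at this
    exact this.symm
  obtain ⟨s, hs0, hs⟩ := kerUp_elem X.le H0 H1 g hbase hfix hT hg hn _ _ v.ne_zero hv'
  rw [H0.TW_cls, ← cls_pow, ← sub_eq_zero, sub_eq_add_neg, ← cls_inv, ← cls_mul, cls_eq_zero_iff]
  refine mem_pows.mpr ⟨Units.mk0 s hs0, Units.ext ?_⟩
  show s ^ n = H0.T ((u₀ : (FB F₀)ˣ) : FB F₀) * ((((u₀ : (FB F₀)ˣ) ^ (l + 1))⁻¹ : (FB F₀)ˣ) : FB F₀)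
  rw [hs, Units.val_inv_eq_inv_val, Units.val_pow_eq_pow_val,
    mul_inv_cancel_right₀ (pow_ne_zero _ (Units.ne_zero _))]

end Fermat.Agent.S43.C4

end
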